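/-
Programme MW (S17), brick BR+ (helper53), part 1: the hypotheses of the AV S27-branch
(`AlgebraicCurve.IsCurveOver K F`, `Algebra.EssFiniteType K F`) for a function field given by a
transcendental generator (`X0.FF.IsGen K x`, i.e. `x` transcendental and `F` finite over `K(x)`).

* `finrank_kaehler_eq_one` : `dim_F Ω[F⁄K] = 1`;
* `isCurveOver_of_isGen`   : `IsCurveOver K F` (`K` algebraically closed of characteristic zero);
* `essFiniteType_of_isGen` : `Algebra.EssFiniteType K F`.
-/
import Mathlib
import Fermat.Prelude.Def_AlgebraicCurve_IsCurveOver
import Fermat.Agent.X0.FFGenus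

set_option autoImplicit false

open AlgebraicCurve IntermediateField KaehlerDifferential

namespace Fermat.Agent.MW.Bridge53.CurveOfGen

open Fermat.Agent.X0.FF

variable {K F : Type*} [Field K] [Field F] [Algebra K F] {x : F}

/-- The differentials of a function field in one variable have rank one. -/
theorem finrank_kaehler_eq_one [CharZero K] (hx : IsGen K x) : Module.finrank F Ω[F⁄K] = 1 := by
  rw [finrank_eq_one_iff_of_nonzero (D K F x) (D_ne_zero hx)]
  exact span_D_eq_top hx

/-- A function field with a transcendental generator over an algebraically closed field of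
characteristic zero is a curve in the sense of the Prelude. -/
theorem isCurveOver_of_isGen [IsAlgClosed K] [CharZero K] (hx : IsGen K x) : IsCurveOver K F :=
  { toHasPrincipalDivisors := Fermat.Agent.X0.FFGenus.hasPrincipalDivisors hx
    finiteResidue := fun v => finiteResidue hx v
    kaehler_free_rank_one := ⟨Module.Free.of_divisionRing F _, finrank_kaehler_eq_one hx⟩ }

/-- A function field with a transcendental generator is essentially of finite type. -/
theorem essFiniteType_of_isGen (hx : IsGen K x) : Algebra.EssFiniteType K F := by
  have h1 : Algebra.EssFiniteType K K⟮x⟯ := by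
    rw [IntermediateField.essFiniteType_iff]
    exact ⟨{x}, by simp⟩
  have := hx.finite
  have h2 : Algebra.EssFiniteType K⟮x⟯ F := inferInstance
  exact Algebra.EssFiniteType.comp K K⟮x⟯ F

end Fermat.Agent.MW.Bridge53.CurveOfGen
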