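/-
Programme MW (S17), brick BR+ (helper53), part 3: **the model curve of a function field, pointed at
a prescribed place.**

`F / K` a function field over an algebraically closed field of characteristic zero,
`alg : F1Model15.ChartAlg K F` a chart algebra whose coordinate `t = alg.t` is a transcendental
generator, `oo` a place at which `t` has a pole.  Then `B1 ⊆ O_oo`, evaluation at `oo` is a
`K`-point `pointAt : B1 →ₐ[K] K` of the second chart killing `s = 1/t`, and

  `modelAt alg hgen oo hoo : F1Model15.Model K F`

is helper15's model curve with base point `ε = oo`: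
* `modelAt_alg`  : its chart algebra is `alg` (`rfl`), so `B0` is the integral closure of `K[t]`;
* `modelAt_P0`   : evaluation at the base point is evaluation at the place `oo`:
  `cc.P0 (e1 b) = valueHom hgen oo b` for `b ∈ B1`;
* `mem_B0_iff_of_pole` : if `oo` is the ONLY pole of `t`, then `B0` is the ring of functions
  regular at all places `≠ oo` ("`Spec B0 = C ∖ {oo}`").

`valueHom hx v : O_v →ₐ[K] K` is the value of a function at a place (`k(v) = K`).
-/
import Mathlib
import Fermat.Agent.AV.F1Model15.Main
import Fermat.Agent.AV.F3_53.Genus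
import Fermat.Agent.X0.FFConst

set_option autoImplicit false

open AlgebraicCurve IntermediateField CategoryTheory AlgebraicGeometry

namespace Fermat.Agent.MW.Bridge53.ModelAt

open Fermat.Agent.X0.FF Fermat.Agent.AV.F1Model15 Fermat.Agent.Jac
  Fermat.Agent.AV.F3_53.Charts

universe u

variable {K F : Type u} [Field K] [Field F] [Algebra K F]

/-! ### The value of a function at a place -/

section Value

variable [IsAlgClosed K] {x : F}

/-- `K ≃ k(v)`. -/
noncomputable def resEquiv (hx : IsGen K x) (v : Place K F) : K ≃ₐ[K] v.ResidueField :=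
  AlgEquiv.ofBijective (Algebra.ofId K v.ResidueField) (algebraMap_residueField_bijective hx v)

/-- **The value at a place** of a function regular there. -/
noncomputable def valueHom (hx : IsGen K x) (v : Place K F) : v.toValuationSubring →ₐ[K] K :=
  ((resEquiv hx v).symm : v.ResidueField →ₐ[K] K).comp
    (IsScalarTower.toAlgHom K v.toValuationSubring v.ResidueField)

theorem algebraMap_valueHom (hx : IsGen K x) (v : Place K F) (f : v.toValuationSubring) :
    algebraMap K v.ResidueField (valueHom hx v f) = IsLocalRing.residue v.toValuationSubring f := by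
  have h : resEquiv hx v (valueHom hx v f) = IsLocalRing.residue v.toValuationSubring f := by
    unfold valueHom
    exact (resEquiv hx v).apply_symm_apply _
  exact h

/-- `f - f(v)` lies in the maximal ideal. -/
theorem sub_valueHom_mem (hx : IsGen K x) (v : Place K F) (f : v.toValuationSubring) :
    f - algebraMap K v.toValuationSubring (valueHom hx v f) ∈
      IsLocalRing.maximalIdeal v.toValuationSubring := by
  rw [← IsLocalRing.residue_eq_zero_iff, map_sub, ← algebraMap_valueHom hx v f, sub_eq_zero]
  exact (IsScalarTower.algebraMap_apply K v.toValuationSubring v.ResidueField _)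

theorem valueHom_eq_zero_iff (hx : IsGen K x) (v : Place K F) (f : v.toValuationSubring) :
    valueHom hx v f = 0 ↔ f ∈ IsLocalRing.maximalIdeal v.toValuationSubring := by
  rw [← IsLocalRing.residue_eq_zero_iff, ← algebraMap_valueHom hx v f,
    map_eq_zero_iff _ (algebraMap K v.ResidueField).injective]

/-- A function with positive order at `v` has value `0` there. -/
theorem valueHom_eq_zero_of_ord_pos (hx : IsGen K x) (v : Place K F) (f : v.toValuationSubring)
    (hf : 0 < v.ord (f : F)) : valueHom hx v f = 0 := by
  rw [valueHom_eq_zero_iff]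
  have hf0 : f ≠ 0 := by
    rintro rfl
    rw [ZeroMemClass.coe_zero, v.ord_zero] at hf
    exact lt_irrefl _ hf
  exact (ffp_mem_maximalIdeal_iff v f hf0).mpr hf

/-- The defining property of the value, in terms of orders. -/
theorem ord_sub_valueHom (hx : IsGen K x) (v : Place K F) (f : v.toValuationSubring) :
    (f : F) = algebraMap K F (valueHom hx v f) ∨
      0 < v.ord ((f : F) - algebraMap K F (valueHom hx v f)) := by
  set g : v.toValuationSubring := f - algebraMap K v.toValuationSubring (valueHom hx v f) with hg
  have hmem := sub_valueHom_mem hx v f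
  rcases eq_or_ne g 0 with h0 | h0
  · left
    have h1 : (g : F) = 0 := by rw [h0]; rfl
    have h2 : (g : F) = (f : F) - algebraMap K F (valueHom hx v f) := rfl
    rw [h2, sub_eq_zero] at h1
    exact h1
  · right
    exact (ffp_mem_maximalIdeal_iff v g h0).mp hmem

end Value

/-! ### The point of the second chart at a pole of `t` -/

section Point

attribute [local instance] ChartAlg.algebra0 ChartAlg.algebra1

variable [IsAlgClosed K] [CharZero K] (alg : ChartAlg K F) (hgen : IsGen K alg.t)
  (oo : Place K F) (hoo : oo.ord alg.t < 0)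

omit [IsAlgClosed K] in
include hgen hoo in
/-- `B1 ⊆ O_oo`. -/
theorem B1_le (b : alg.B1) : (b : F) ∈ oo.toValuationSubring := by
  have h1 : (b : F) ∈ regOn K (chartSet K alg.t⁻¹) := by
    rw [← Fermat.Agent.AV.F3_53.Genus.B1_eq alg hgen]
    exact b.2
  refine h1 oo (ffp_mem_of_ord_nonneg oo ?_)
  rw [oo.ord_inv]
  omega

/-- The inclusion `B1 → O_oo`. -/
def inclHom : alg.B1 →ₐ[K] oo.toValuationSubring where
  toFun b := ⟨(b : F), B1_le alg hgen oo hoo b⟩
  map_one' := rfl
  map_mul' _ _ := rfl
  map_zero' := rfl
  map_add' _ _ := rfl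
  commutes' _ := rfl

/-- **Evaluation at `oo`** as a `K`-point of the second chart. -/
noncomputable def pointAt : alg.B1 →ₐ[K] K :=
  (valueHom hgen oo).comp (inclHom alg hgen oo hoo)

theorem pointAt_apply (b : alg.B1) :
    pointAt alg hgen oo hoo b = valueHom hgen oo ⟨(b : F), B1_le alg hgen oo hoo b⟩ := rfl

/-- `s = 1/t` vanishes at `oo`. -/
theorem pointAt_s1 : pointAt alg hgen oo hoo alg.s1 = 0 := by
  rw [pointAt_apply]
  apply valueHom_eq_zero_of_ord_pos
  show 0 < oo.ord (alg.t⁻¹)
  rw [oo.ord_inv]
  omega

/-- **The model curve pointed at `oo`.** -/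
noncomputable def modelAt : Model K F :=
  alg.model (pointAt alg hgen oo hoo) (pointAt_s1 alg hgen oo hoo) alg.isProper alg.isIntegral_C

@[simp] theorem modelAt_alg : (modelAt alg hgen oo hoo).alg = alg := rfl

/-- Evaluation at the base point of `modelAt` is evaluation at the place `oo`. -/
theorem modelAt_P0 (b : alg.B1) :
    (modelAt alg hgen oo hoo).cc.P0 ((modelAt alg hgen oo hoo).e1 b) =
      pointAt alg hgen oo hoo b := by
  have e : (⊤ : (Spec (CommRingCat.of K)).Opens) ≤
      (Glue.pt alg.chart (pointAt alg hgen oo hoo)) ⁻¹ᵁ (Glue.U1 alg.chart) := by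
    rw [Glue.pt_preimage_U1]
  have h := Glue.appLE_secHom (Glue.i1 alg.chart) (Glue.U1 alg.chart) rfl
    (pointAt alg hgen oo hoo).toRingHom e
  have h2 := congrArg (fun g : Γ(Glue.X alg.chart, Glue.U1 alg.chart) ⟶ CommRingCat.of K =>
    g.hom (alg.re1 b)) h
  simp only [CommRingCat.hom_comp, RingHom.comp_apply, CommRingCat.hom_ofHom] at h2
  have h3 : (Glue.secHom (Glue.i1 alg.chart) (Glue.U1 alg.chart) rfl).hom (alg.re1 b) = b :=
    alg.e1_re1 b
  rw [h3] at h2
  exact h2

end Point

/-! ### `Spec B0 = C ∖ {oo}` when `oo` is the only pole of `t` -/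

section OnlyPole

variable [CharZero K] (alg : ChartAlg K F) (hgen : IsGen K alg.t) (oo : Place K F)

include hgen in
/-- If `oo` is the only pole of `t`, then `B0` is the ring of functions regular off `oo`. -/
theorem mem_B0_iff_of_pole (hpole : ∀ v : Place K F, v.ord alg.t < 0 ↔ v = oo) (f : F) :
    f ∈ alg.B0 ↔ ∀ v : Place K F, v ≠ oo → f ∈ v.toValuationSubring := by
  rw [Fermat.Agent.AV.F3_53.Genus.B0_eq alg hgen]
  constructor
  · intro hf v hv
    refine hf v ((ffp_mem_iff_ord_nonneg v).mpr ?_)
    by_contra hcon
    exact hv ((hpole v).mp (not_le.mp hcon))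
  · intro hf v hv
    refine hf v ?_
    rintro rfl
    have h1 : 0 ≤ v.ord alg.t := (ffp_mem_iff_ord_nonneg v).mp hv
    have h2 : v.ord alg.t < 0 := (hpole v).mpr rfl
    omega

end OnlyPole

/-! ### The model attached to a transcendental generator with a prescribed pole -/

section OfGen

variable [IsAlgClosed K] [CharZero K] {t : F}

/-- The chart algebra of a transcendental generator (characteristic zero). -/
noncomputable def chartAlgOfGen (hgen : IsGen K t) : ChartAlg K F :=
  haveI := hgen.finite
  haveI := ChartAlg34.isSeparable_adjoin_simple (K := K) t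
  ChartAlg34.chartAlgOf t hgen.transcendental

@[simp] theorem chartAlgOfGen_t (hgen : IsGen K t) : (chartAlgOfGen hgen).t = t := rfl

/-- **The model curve with coordinate `t`, pointed at a pole `oo` of `t`.** -/
noncomputable def modelOfGen (hgen : IsGen K t) (oo : Place K F) (hoo : oo.ord t < 0) : Model K F :=
  modelAt (chartAlgOfGen hgen) hgen oo hoo

@[simp] theorem modelOfGen_t (hgen : IsGen K t) (oo : Place K F) (hoo : oo.ord t < 0) :
    (modelOfGen hgen oo hoo).alg.t = t := rfl

/-- `B0` of `modelOfGen` is the integral closure of `K[t]`. -/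
theorem mem_B0_modelOfGen_iff (hgen : IsGen K t) (oo : Place K F) (hoo : oo.ord t < 0) (f : F) :
    f ∈ (modelOfGen hgen oo hoo).alg.B0 ↔ IsIntegral (Algebra.adjoin K {t}) f :=
  (modelOfGen hgen oo hoo).alg.mem0_iff f

/-- `Spec B0 = C ∖ {oo}` for `modelOfGen` when `oo` is the only pole of `t`. -/
theorem mem_B0_modelOfGen_iff_of_pole (hgen : IsGen K t) (oo : Place K F) (hoo : oo.ord t < 0)
    (hpole : ∀ v : Place K F, v.ord t < 0 ↔ v = oo) (f : F) :
    f ∈ (modelOfGen hgen oo hoo).alg.B0 ↔ ∀ v : Place K F, v ≠ oo → f ∈ v.toValuationSubring :=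
  mem_B0_iff_of_pole (chartAlgOfGen hgen) hgen oo hpole f

/-- Evaluation at the base point of `modelOfGen` is evaluation at `oo`. -/
theorem modelOfGen_P0 (hgen : IsGen K t) (oo : Place K F) (hoo : oo.ord t < 0)
    (b : (modelOfGen hgen oo hoo).alg.B1) :
    (modelOfGen hgen oo hoo).cc.P0 ((modelOfGen hgen oo hoo).e1 b) =
      pointAt (chartAlgOfGen hgen) hgen oo hoo b :=
  modelAt_P0 (chartAlgOfGen hgen) hgen oo hoo b

end OfGen

end Fermat.Agent.MW.Bridge53.ModelAt
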