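/-
Programme MW (S17), brick BR+ (helper53), part 5: **THE MODEL OF `X_0(N)` OVER `ℚbar`**.

For a coordinate `c : NCA61.Final.Coordinate N` (helper61: a Galois-fixed generator `t` of
`FF N = ℚbar · F₀` whose only pole is the `q`-expansion place `∞`):

* `exists_pole` : a transcendental generator has a pole (general function fields);
* `ord_infty_neg`, `pole_iff` : `∞` is the one and only pole of `t`;
* `modelX0 c : F1Model15.Model ℚbar (FF N)` : the two-chart model `Spec B0 ∪ Spec B1` with
  `t := c.t` and base point `∞` (`modelOfGen` of `Bridge53.ModelAt`);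
* `mem_B0_iff` : `B0` = the functions regular off `∞`;
* `place_base` : the base point `ε` of the model corresponds to the place `∞` under helper34's
  `pointPlaceEquiv`; `mem_U0_iff_ne_infty` : a `ℚbar`-point lies in the chart `U0` iff its place is
  not `∞`;
* `germVal_t_eq_val` : helper10's `germVal` of the coordinate function at a point of `U0` is
  helper61's `Coordinate.val` at the corresponding place;
* `genus_modelX0` : the genus of the model is the Prelude genus of `FF N`.
-/
import Mathlib
import Fermat.Agent.MW.Bridge53.Values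
import Fermat.Agent.MW.NCA61.Final
import Fermat.Agent.AV.F3_53.Genus
import Fermat.Agent.RR.RRMain

set_option autoImplicit false

open AlgebraicCurve ModularCurve CategoryTheory AlgebraicGeometry NeronModelInfra IntermediateField

namespace Fermat.Agent.MW.Bridge53.ModelX0

open Fermat.Agent.X0 Fermat.Agent.X0.FF Fermat.Agent.AV.F1Model15 Fermat.Agent.Jac
  Fermat.Agent.Jac.CurveHyp80 Fermat.Agent.MW.Bridge34 Fermat.Agent.MW.NorthB10
  Fermat.Agent.MW.Bridge53.ModelAt Fermat.Agent.MW.Bridge53.Values
  Fermat.Agent.MW.NCA61.InfPlace Fermat.Agent.MW.NCA61.Final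

/-! ### A transcendental generator has a pole -/

section General

variable {K F : Type*} [Field K] [Field F] [Algebra K F] [IsAlgClosed K] [CharZero K] {x : F}

theorem exists_pole (hx : IsGen K x) : ∃ v : Place K F, v.ord x < 0 := by
  by_contra h
  push Not at h
  have hs := sum_ord_poles hx
  have h0 : ∑ᶠ (v : Place K F) (_ : v.ord x < 0), -v.ord x = 0 := by
    apply finsum_eq_zero_of_forall_eq_zero
    intro v
    have hv : ¬ v.ord x < 0 := not_lt.mpr (h v)
    simp [hv]
  have := hx.finite
  have hpos : 0 < Module.finrank K⟮x⟯ F := Module.finrank_pos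
  omega

end General

/-! ### The model -/

variable {N : ℕ} [NeZero N] (c : Coordinate N)

/-- The coordinate has a pole at `∞`. -/
theorem ord_infty_neg : (inftyPlace N).ord c.t < 0 := by
  obtain ⟨v, hv⟩ := exists_pole c.isGen
  by_cases h : v = inftyPlace N
  · rwa [h] at hv
  · exact absurd (c.regular v h) (not_le.mpr hv)

/-- `∞` is the only pole of the coordinate. -/
theorem pole_iff (v : Place Kbar (FF N)) : v.ord c.t < 0 ↔ v = inftyPlace N := by
  constructor
  · intro hv
    by_contra h
    exact absurd (c.regular v h) (not_le.mpr hv)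
  · rintro rfl
    exact ord_infty_neg c

/-- **The model of `X_0(N)` over `ℚbar`** attached to a coordinate. -/
noncomputable def modelX0 : Model Kbar (FF N) :=
  modelOfGen c.isGen (inftyPlace N) (ord_infty_neg c)

@[simp] theorem modelX0_t : (modelX0 c).alg.t = c.t := rfl

theorem isGen_modelX0 : IsGen Kbar (modelX0 c).alg.t := c.isGen

/-- `B0` is the ring of functions regular away from `∞`. -/
theorem mem_B0_iff (f : FF N) :
    f ∈ (modelX0 c).alg.B0 ↔
      ∀ v : Place Kbar (FF N), v ≠ inftyPlace N → f ∈ v.toValuationSubring :=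
  mem_B0_modelOfGen_iff_of_pole c.isGen (inftyPlace N) (ord_infty_neg c) (pole_iff c) f

/-- The base point of the model is the place `∞`. -/
theorem place_base : pointPlaceEquiv (modelX0 c) (modelX0 c).ε = inftyPlace N := by
  rw [← pole_iff c]
  have h := t_not_mem_base (modelX0 c)
  rw [modelX0_t] at h
  by_contra h'
  exact h (Fermat.Agent.X0.FF.mem_of_ord_nonneg _ (not_lt.mp h'))

/-- A `ℚbar`-point lies in the first chart iff its place is not `∞`. -/
theorem mem_U0_iff_ne_infty (x : KPoint (modelX0 c)) :
    x.1 ⁻¹ᵁ (modelX0 c).cc.U0 = ⊤ ↔ pointPlaceEquiv (modelX0 c) x ≠ inftyPlace N := by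
  rw [mem_U0_iff, modelX0_t, Ne, ← pole_iff c]
  constructor
  · intro h hneg
    have := Fermat.Agent.X0.FF.ord_nonneg_of_mem _ h
    omega
  · intro h
    exact Fermat.Agent.X0.FF.mem_of_ord_nonneg _ (not_lt.mp h)

/-- **The coordinate value**: helper10's `germVal` of the coordinate function at a point of the
first chart is helper61's `Coordinate.val` at the corresponding place. -/
theorem germVal_t_eq_val (x : KPoint (modelX0 c)) (h0 : x.1 ⁻¹ᵁ (modelX0 c).cc.U0 = ⊤)
    (hU : x.1 (IsLocalRing.closedPoint Kbar) ∈ (modelX0 c).cc.U0) :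
    germVal x.1 (modelX0 c).cc.U0 hU (modelX0 c).cc.chart0.t =
      c.val (pointPlaceEquiv (modelX0 c) x) ((mem_U0_iff_ne_infty c x).mp h0) := by
  symm
  rw [Coordinate.val_eq_iff]
  have h := isVal_t (modelX0 c) x h0
  rw [isVal_iff_ord, modelX0_t] at h
  have e := germVal_eq_evalAt x (modelX0 c).cc.U0 h0 hU (modelX0 c).cc.chart0.t
  rcases h with h | h
  · exfalso
    apply c.isGen.transcendental
    rw [h]
    exact isAlgebraic_algebraMap _
  · exact e ▸ h

/-- The genus of the model is the (Prelude) genus of `FF N`. -/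
theorem genus_modelX0 : Genus41.genus (modelX0 c).cc = genus Kbar (FF N) := by
  rw [Fermat.Agent.AV.F3_53.Genus.genus_eq_genusFF (modelX0 c) c.isGen,
    Fermat.Agent.RR.RRMain.genus_eq_genusFF c.isGen]

end Fermat.Agent.MW.Bridge53.ModelX0
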