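/-
Programme MW (S17), brick BR+ (helper53), part 6: **`modelX0` in the vocabulary of the NC-B
integrator** (helper15's `placeOfPoint` / `placeBase` / `UniquePole`, helper61's total value
function `valT`).

For `c : NCA61.Final.Coordinate N`, `M := modelX0 c`:
* `uniquePole_modelX0` : `Bridge15.UniquePole M`;
* `placeBase_modelX0` : `Bridge15.placeBase M = inftyPlace N`;
* `placeOfPoint_modelX0` : `Bridge15.placeOfPoint M x = pointPlaceEquiv M x`;
* `placeOfPoint_ne_infty_iff` : `placeOfPoint M x ≠ ∞ ↔ x ∈ U0`;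
* `germVal_t_eq_valT` : `germVal x.1 U0 hU M.cc.t = c.valT (placeOfPoint M x)` for every `ℚbar`-point
  `x` of `U0` (no side condition: membership in `U0` is the hypothesis `hU` of `germVal`);
* `isVal_valT` : `IsVal v M.alg.t (c.valT v)` for `v ≠ ∞` (the hypothesis `htv` of helper25's
  `NorthB25.exists_stratumBound_jdata`).
-/
import Mathlib
import Fermat.Agent.MW.Bridge53.ModelX0
import Fermat.Agent.MW.Bridge34.PointPair
import Fermat.Agent.MW.Bridge15.Strata
import Fermat.Agent.MW.CurveInst7
import Fermat.Agent.MW.NCA61.Extras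

set_option autoImplicit false
set_option linter.unusedSectionVars false

open AlgebraicCurve ModularCurve CategoryTheory AlgebraicGeometry NeronModelInfra
  GoodReductionJacobian

namespace Fermat.Agent.MW.Bridge53.ModelX0

open Fermat.Agent.X0 Fermat.Agent.X0.FF Fermat.Agent.AV.F1Model15 Fermat.Agent.Jac
  Fermat.Agent.Jac.CurveHyp80 Fermat.Agent.MW.Bridge34 Fermat.Agent.MW.NorthB10
  Fermat.Agent.MW.Bridge53.ModelAt Fermat.Agent.MW.Bridge53.Values
  Fermat.Agent.MW.NCA61.InfPlace Fermat.Agent.MW.NCA61.Final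

variable {N : ℕ} [NeZero N] (c : Coordinate N)

attribute [local instance] Fermat.Agent.MW.CurveInst7.isCurveOver_bar

/-- `t` has a unique pole on the model. -/
theorem uniquePole_modelX0 : Fermat.Agent.MW.Bridge15.UniquePole (modelX0 c) :=
  Fermat.Agent.MW.Bridge15.uniquePole_of_ord (modelX0 c) (inftyPlace N) (pole_iff c)

/-- helper15's place of a point is helper34's. -/
theorem placeOfPoint_modelX0 (x : KPoint (modelX0 c)) :
    Fermat.Agent.MW.Bridge15.placeOfPoint (modelX0 c) x = pointPlaceEquiv (modelX0 c) x :=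
  placeOfPoint_eq (modelX0 c) x

/-- helper15's base place of the model is `∞`. -/
theorem placeBase_modelX0 : Fermat.Agent.MW.Bridge15.placeBase (modelX0 c) = inftyPlace N :=
  (placeBase_eq (modelX0 c)).trans (place_base c)

/-- A `ℚbar`-point lies in the first chart iff its place is not `∞`. -/
theorem placeOfPoint_ne_infty_iff (x : KPoint (modelX0 c)) :
    Fermat.Agent.MW.Bridge15.placeOfPoint (modelX0 c) x ≠ inftyPlace N ↔
      x.1 ⁻¹ᵁ (modelX0 c).cc.U0 = ⊤ := by
  rw [placeOfPoint_modelX0, mem_U0_iff_ne_infty]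

/-- The same with membership of the closed point. -/
theorem placeOfPoint_ne_infty_iff_mem (x : KPoint (modelX0 c)) :
    Fermat.Agent.MW.Bridge15.placeOfPoint (modelX0 c) x ≠ inftyPlace N ↔
      x.1 (IsLocalRing.closedPoint Kbar) ∈ (modelX0 c).cc.U0 := by
  rw [placeOfPoint_ne_infty_iff, Fermat.Agent.MW.Bridge15.pt_mem_iff]

/-- **Values, total form**: the `germVal` of the coordinate function at a `ℚbar`-point of `U0` is
helper61's total value function at its place. -/
theorem germVal_t_eq_valT (x : KPoint (modelX0 c))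
    (hU : x.1 (IsLocalRing.closedPoint Kbar) ∈ (modelX0 c).cc.U0) :
    germVal x.1 (modelX0 c).cc.U0 hU (modelX0 c).cc.t =
      c.valT (Fermat.Agent.MW.Bridge15.placeOfPoint (modelX0 c) x) := by
  have h0 : x.1 ⁻¹ᵁ (modelX0 c).cc.U0 = ⊤ :=
    (Fermat.Agent.MW.Bridge15.pt_mem_iff (modelX0 c) x _).mp hU
  have hne : pointPlaceEquiv (modelX0 c) x ≠ inftyPlace N := (mem_U0_iff_ne_infty c x).mp h0
  rw [placeOfPoint_modelX0, c.valT_of_ne hne]
  exact germVal_t_eq_val c x h0 hU

/-- The same for an arbitrary morphism `v : Spec ℚbar ⟶ M.C` over `ℚbar`. -/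
theorem germVal_t_eq_valT' (v : Spec (CommRingCat.of Kbar) ⟶ (modelX0 c).C)
    (hv : v ≫ (modelX0 c).c = 𝟙 _)
    (hU : v (IsLocalRing.closedPoint Kbar) ∈ (modelX0 c).cc.U0) :
    germVal v (modelX0 c).cc.U0 hU (modelX0 c).cc.t =
      c.valT (Fermat.Agent.MW.Bridge15.placeOfPoint (modelX0 c) ⟨v, hv⟩) :=
  germVal_t_eq_valT c ⟨v, hv⟩ hU

/-- helper61's total value function computes the value of `t` (helper34's `IsVal`) off `∞`:
the hypothesis `htv` of helper25's `NorthB25.exists_stratumBound_jdata` with `tv := c.valT`,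
`oo := inftyPlace N`. -/
theorem isVal_valT (v : Place Kbar (FF N)) (hv : v ≠ inftyPlace N) :
    IsVal v (modelX0 c).alg.t (c.valT v) := by
  rw [isVal_iff_ord, modelX0_t]
  exact Or.inr ((c.valT_eq_iff hv _).mp rfl)

end Fermat.Agent.MW.Bridge53.ModelX0
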