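/-
Programme MW (S17), brick BR+ (helper53), part 2: the function field `Fbar N =
modularFunctionFieldBar N` of `X₀(N)` over `ℚbar` satisfies the hypotheses of the AV S27-branch
(F1 model curve, F2 `Pic⁰ = J(K)`, F3 genus): `IsCurveOver`, `Algebra.EssFiniteType`.
So `JZero N = Pic0 ℚbar (Fbar N)` is the group of `ℚbar`-points of the Jacobian of the model curve.
-/
import Mathlib
import Fermat.Agent.MW.Bridge53.CurveOfGen
import Fermat.Agent.RED.TOP.FbarFacts20

set_option autoImplicit false

open AlgebraicCurve ModularCurve

namespace Fermat.Agent.MW.Bridge53.ModularInst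

open Fermat.Agent.MW.Bridge53.CurveOfGen Fermat.Agent.RED.TOP

variable (N : ℕ) [NeZero N]

/-- The function field of `X₀(N)` over `ℚbar` is a curve in the sense of the Prelude. -/
theorem isCurveOver_bar :
    IsCurveOver (AlgebraicClosure ℚ) ↥(modularFunctionFieldBar N) :=
  isCurveOver_of_isGen (FbarFacts20.isGen_j N)

/-- The function field of `X₀(N)` over `ℚbar` is essentially of finite type. -/
theorem essFiniteType_bar :
    Algebra.EssFiniteType (AlgebraicClosure ℚ) ↥(modularFunctionFieldBar N) :=
  essFiniteType_of_isGen (FbarFacts20.isGen_j N)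

/-- The differentials of the function field of `X₀(N)` over `ℚbar` have rank one. -/
theorem finrank_kaehler_bar :
    Module.finrank ↥(modularFunctionFieldBar N)
      (Ω[↥(modularFunctionFieldBar N)⁄AlgebraicClosure ℚ]) = 1 :=
  finrank_kaehler_eq_one (FbarFacts20.isGen_j N)

end Fermat.Agent.MW.Bridge53.ModularInst
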