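/-
Programme MW (S17), brick BR+ (helper53), part 4: **VALUES**.

The three notions of "value of a function at a point" used in MW agree:
* helper10's `NorthB10.germVal v U hU : Γ(X, U) →+* E` (value at an `E`-point of a section over an
  open, used by the height bounds NC-B);
* the JAC library's `CurveHyp80.evalAt x U hx` / `evalAlg0 cc x h0`, `evalAlg1 cc x h1`
  (used by helper34's dictionary `Bridge34.pointPlaceEquiv : K-points ≃ places`);
* `Bridge53.ModelAt.valueHom hx v : O_v →ₐ[K] K`, the residue of a function at a place.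

Main statements, for `M : F1Model15.Model K F`, `x` a `K`-point of `M.C`, `v = pointPlaceEquiv M x`:
* `germVal_eq_evalAt` (any `k`-scheme);
* `germVal_U0_eq_valueHom` : `germVal x.1 U0 _ (M.e0 b) = valueHom hy v b` for `b ∈ B0`, `x ∈ U0`;
* `germVal_U1_eq_valueHom` : the same on the second chart.
-/
import Mathlib
import Fermat.Agent.MW.Bridge53.ModelAt
import Fermat.Agent.MW.Bridge34.ModelPoints
import Fermat.Agent.MW.NorthB10.GermVal

set_option autoImplicit false

open AlgebraicCurve CategoryTheory AlgebraicGeometry NeronModelInfra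

namespace Fermat.Agent.MW.Bridge53.Values

open Fermat.Agent.X0.FF Fermat.Agent.AV.F1Model15 Fermat.Agent.Jac Fermat.Agent.Jac.CurveHyp80
  Fermat.Agent.MW.Bridge34 Fermat.Agent.MW.NorthB10 Fermat.Agent.MW.Bridge53.ModelAt

universe u

/-! ### `germVal` versus `evalAt` -/

section General

variable {k : Type u} [Field k] {C : Scheme.{u}} {c : C ⟶ Spec (CommRingCat.of k)}

/-- A `k`-point with `x⁻¹ U = ⊤` sends the closed point into `U`. -/
theorem closedPoint_mem_of_preimage_eq_top (x : SchemeHomOver (𝟙 (Spec (CommRingCat.of k))) c)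
    (U : C.Opens) (hx : x.1 ⁻¹ᵁ U = ⊤) : x.1 (IsLocalRing.closedPoint k) ∈ U := by
  have h : IsLocalRing.closedPoint k ∈ x.1 ⁻¹ᵁ U := by
    rw [hx]
    trivial
  exact h

/-- helper10's `germVal` is the evaluation `evalAt` of the JAC library. -/
theorem germVal_eq_evalAt (x : SchemeHomOver (𝟙 (Spec (CommRingCat.of k))) c) (U : C.Opens)
    (hx : x.1 ⁻¹ᵁ U = ⊤) (hU : x.1 (IsLocalRing.closedPoint k) ∈ U) (f : Γ(C, U)) :
    germVal x.1 U hU f = evalAt x U hx f := by
  rw [germVal_apply, evalAt_apply]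
  have h := Scheme.germ_stalkClosedPointTo x.1 U hU
  have h2 := congrArg (fun φ => φ.hom f) h
  simp only [CommRingCat.hom_comp, RingHom.comp_apply] at h2
  rw [h2]
  rfl

end General

/-! ### Values on the model curve -/

section Model

variable {K F : Type u} [Field K] [Field F] [Algebra K F] [IsAlgClosed K] (M : Model K F)
  {y : F} (hy : IsGen K y)

omit M in
/-- `valueHom` computes the value in the sense of `Bridge34.IsVal`. -/
theorem isVal_valueHom (v : Place K F) (f : v.toValuationSubring) :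
    IsVal v (f : F) (valueHom hy v f) :=
  isVal_iff_ord.mpr (ord_sub_valueHom hy v f)

omit M in
/-- Any value in the sense of `IsVal` is `valueHom`. -/
theorem eq_valueHom_of_isVal {v : Place K F} {f : F} {a : K} (h : IsVal v f a) :
    a = valueHom hy v ⟨f, h.mem⟩ :=
  IsVal.unique h (isVal_valueHom hy v ⟨f, h.mem⟩)

/-- Values on the first chart: `evalAlg0` is the residue at the corresponding place. -/
theorem evalAlg0_eq_valueHom (x : KPoint M) (h0 : x.1 ⁻¹ᵁ M.cc.U0 = ⊤) (b : M.alg.B0) :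
    evalAlg0 M.cc x h0 (M.e0 b) =
      valueHom hy (pointPlaceEquiv M x) ⟨(b : F), (isVal_of_mem_U0 M x h0 b).mem⟩ :=
  eq_valueHom_of_isVal hy (isVal_of_mem_U0 M x h0 b)

/-- Values on the second chart. -/
theorem evalAlg1_eq_valueHom (x : KPoint M) (h1 : x.1 ⁻¹ᵁ M.cc.U1 = ⊤) (b : M.alg.B1) :
    evalAlg1 M.cc x h1 (M.e1 b) =
      valueHom hy (pointPlaceEquiv M x) ⟨(b : F), (isVal_of_mem_U1 M x h1 b).mem⟩ :=
  eq_valueHom_of_isVal hy (isVal_of_mem_U1 M x h1 b)

/-- **VALUES, first chart**: helper10's `germVal` of `b ∈ B0` at a `K`-point of `U0` is the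
residue of `b` at the corresponding place. -/
theorem germVal_U0_eq_valueHom (x : KPoint M) (h0 : x.1 ⁻¹ᵁ M.cc.U0 = ⊤)
    (hU : x.1 (IsLocalRing.closedPoint K) ∈ M.cc.U0) (b : M.alg.B0) :
    germVal x.1 M.cc.U0 hU (M.e0 b) =
      valueHom hy (pointPlaceEquiv M x) ⟨(b : F), (isVal_of_mem_U0 M x h0 b).mem⟩ := by
  exact (germVal_eq_evalAt x M.cc.U0 h0 hU _).trans (evalAlg0_eq_valueHom M hy x h0 b)

/-- **VALUES, second chart.** -/
theorem germVal_U1_eq_valueHom (x : KPoint M) (h1 : x.1 ⁻¹ᵁ M.cc.U1 = ⊤)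
    (hU : x.1 (IsLocalRing.closedPoint K) ∈ M.cc.U1) (b : M.alg.B1) :
    germVal x.1 M.cc.U1 hU (M.e1 b) =
      valueHom hy (pointPlaceEquiv M x) ⟨(b : F), (isVal_of_mem_U1 M x h1 b).mem⟩ := by
  exact (germVal_eq_evalAt x M.cc.U1 h1 hU _).trans (evalAlg1_eq_valueHom M hy x h1 b)

/-- The value of the coordinate `t` at a `K`-point of the first chart is `t(v)`. -/
theorem germVal_t_eq_valueHom (x : KPoint M) (h0 : x.1 ⁻¹ᵁ M.cc.U0 = ⊤)
    (hU : x.1 (IsLocalRing.closedPoint K) ∈ M.cc.U0) :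
    germVal x.1 M.cc.U0 hU M.cc.chart0.t =
      valueHom hy (pointPlaceEquiv M x) ⟨M.alg.t, (isVal_t M x h0).mem⟩ := by
  exact (germVal_eq_evalAt x M.cc.U0 h0 hU _).trans (eq_valueHom_of_isVal hy (isVal_t M x h0))

/-- In the statement `IsVal`: the `germVal` of `b ∈ B0` at `x` is the value of `b` at the place of
`x` (no generator needed). -/
theorem isVal_germVal_U0 (x : KPoint M) (h0 : x.1 ⁻¹ᵁ M.cc.U0 = ⊤)
    (hU : x.1 (IsLocalRing.closedPoint K) ∈ M.cc.U0) (b : M.alg.B0) :
    IsVal (pointPlaceEquiv M x) (b : F) (germVal x.1 M.cc.U0 hU (M.e0 b)) := by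
  have h := germVal_eq_evalAt x M.cc.U0 h0 hU (M.e0 b)
  have h' := isVal_of_mem_U0 M x h0 b
  exact h ▸ h'

theorem isVal_germVal_U1 (x : KPoint M) (h1 : x.1 ⁻¹ᵁ M.cc.U1 = ⊤)
    (hU : x.1 (IsLocalRing.closedPoint K) ∈ M.cc.U1) (b : M.alg.B1) :
    IsVal (pointPlaceEquiv M x) (b : F) (germVal x.1 M.cc.U1 hU (M.e1 b)) := by
  have h := germVal_eq_evalAt x M.cc.U1 h1 hU (M.e1 b)
  have h' := isVal_of_mem_U1 M x h1 b
  exact h ▸ h'

end Model

end Fermat.Agent.MW.Bridge53.Values
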